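import Fermat.Agent.H56.S58.Hasse2OrdAbs
import Fermat.Agent.H51.S58.HasseGeneric

/-!
# S58 glue, row 1094 HASSE2 (helper56): the Hasse relation for the two ORDINARY normal forms
over `𝔽₂`

* `hasseRelation_ord0 : HasseRelation ⟨1, 0, 0, 0, 1⟩`  (`y² + x y = x³ + 1`, trace `-1`);
* `hasseRelation_ord1 : HasseRelation ⟨1, 1, 0, 0, 1⟩`  (`y² + x y = x³ + x² + 1`, trace `+1`).

The generic-point computation is `Fermat.Agent.H56.S58.ord0_rel` / `ord1_rel`; the passage from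
generic points to all points is helper51's `Fermat.Agent.H51.S58.hasseRelation_of_generic`.
-/

set_option autoImplicit false
set_option linter.unusedSectionVars false
set_option linter.unusedVariables false

namespace Fermat.Agent.H56.S58

open WeierstrassCurve WeierstrassCurve.Affine WeierstrassCurve.Affine.Point
open Fermat.Agent.H40

/-- `2 = 0` in an `𝔽₂`-algebra. -/
theorem h2o_two_eq_zero (K : Type*) [Field K] [Algebra (ZMod 2) K] : (2 : K) = 0 := by
  have h : (2 : K) = algebraMap (ZMod 2) K 2 := (map_ofNat _ 2).symm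
  rw [h, show (2 : ZMod 2) = 0 from rfl, _root_.map_zero]

/-- Frobenius on affine points over `𝔽₂`. -/
theorem h2o_frobPt_some (E : WeierstrassCurve (ZMod 2)) (K : Type*) [Field K] [DecidableEq K]
    [Algebra (ZMod 2) K] (a b : K) (hab : (E⁄K).toAffine.Nonsingular a b) :
    ∃ hab' : (E⁄K).toAffine.Nonsingular (a ^ 2) (b ^ 2),
      frobPt E K (Point.some a b hab) = Point.some (a ^ 2) (b ^ 2) hab' := by
  obtain ⟨h', e⟩ := frobPt_some E K hab
  have hc : Fintype.card (ZMod 2) = 2 := ZMod.card 2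
  revert h' e
  rw [hc]
  intro h' e
  exact ⟨h', e⟩

/-- The number of points of a Weierstrass curve over `𝔽₂` from the number of nonsingular
affine solutions. -/
theorem h2o_card (E : WeierstrassCurve (ZMod 2)) (n : ℕ)
    (hn : (Finset.univ.filter (fun xy : ZMod 2 × ZMod 2 =>
      (xy.2 ^ 2 + E.a₁ * xy.1 * xy.2 + E.a₃ * xy.2 =
        xy.1 ^ 3 + E.a₂ * xy.1 ^ 2 + E.a₄ * xy.1 + E.a₆) ∧
      (E.a₁ * xy.2 ≠ 3 * xy.1 ^ 2 + 2 * E.a₂ * xy.1 + E.a₄ ∨
        xy.2 ≠ -xy.2 - E.a₁ * xy.1 - E.a₃))).card = n) :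
    E.card = n + 1 := by
  classical
  unfold WeierstrassCurve.card
  rw [Nat.card_congr (nonsingularPointEquiv E.toAffine)]
  have e : {xy : ZMod 2 × ZMod 2 // E.toAffine.Nonsingular xy.1 xy.2} ≃
      {xy : ZMod 2 × ZMod 2 // (xy.2 ^ 2 + E.a₁ * xy.1 * xy.2 + E.a₃ * xy.2 =
        xy.1 ^ 3 + E.a₂ * xy.1 ^ 2 + E.a₄ * xy.1 + E.a₆) ∧
      (E.a₁ * xy.2 ≠ 3 * xy.1 ^ 2 + 2 * E.a₂ * xy.1 + E.a₄ ∨
        xy.2 ≠ -xy.2 - E.a₁ * xy.1 - E.a₃)} :=
    Equiv.subtypeEquivRight fun xy => by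
      rw [nonsingular_iff, equation_iff]
  have h1 : Nat.card (WithZero {xy : ZMod 2 × ZMod 2 // E.toAffine.Nonsingular xy.1 xy.2}) =
      Nat.card {xy : ZMod 2 × ZMod 2 // E.toAffine.Nonsingular xy.1 xy.2} + 1 := by
    show Nat.card (Option _) = _
    rw [Nat.card_eq_fintype_card, Fintype.card_option, Nat.card_eq_fintype_card]
  rw [h1, Nat.card_congr e, Nat.card_eq_fintype_card, Fintype.card_subtype, ← hn]

theorem h2o_trace0 : (⟨1, 0, 0, 0, 1⟩ : WeierstrassCurve (ZMod 2)).traceOfFrobenius = -1 := by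
  unfold WeierstrassCurve.traceOfFrobenius
  rw [h2o_card _ 3 (by decide), Nat.card_eq_fintype_card, ZMod.card]
  norm_num

theorem h2o_trace1 : (⟨1, 1, 0, 0, 1⟩ : WeierstrassCurve (ZMod 2)).traceOfFrobenius = 1 := by
  unfold WeierstrassCurve.traceOfFrobenius
  rw [h2o_card _ 1 (by decide), Nat.card_eq_fintype_card, ZMod.card]
  norm_num

/-- Generic points of `y² + x y = x³ + 1`. -/
theorem h2o_generic0 (K : Type) [Field K] [DecidableEq K] [Algebra (ZMod 2) K] (x y : K)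
    (hxy : ((⟨1, 0, 0, 0, 1⟩ : WeierstrassCurve (ZMod 2))⁄K).toAffine.Nonsingular x y)
    (hx0 : x ≠ 0) (hx1 : x ≠ 1) :
    hasseOp (⟨1, 0, 0, 0, 1⟩ : WeierstrassCurve (ZMod 2)) K (Point.some x y hxy) = 0 := by
  have key := ord0_rel (((⟨1, 0, 0, 0, 1⟩ : WeierstrassCurve (ZMod 2))⁄K).toAffine)
    (h2o_two_eq_zero K) (_root_.map_one _) (_root_.map_zero _) (_root_.map_zero _)
    (_root_.map_zero _) (_root_.map_one _)
    (frobPt (⟨1, 0, 0, 0, 1⟩ : WeierstrassCurve (ZMod 2)) K)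
    (h2o_frobPt_some _ K) hxy hx0 hx1
  rw [_root_.map_add] at key
  rw [hasseOp_apply, h2o_trace0, ZMod.card]
  rw [show ((2 : ℕ) : ℤ) = 2 from rfl, two_zsmul, neg_one_zsmul, sub_neg_eq_add]
  exact key

/-- Generic points of `y² + x y = x³ + x² + 1`. -/
theorem h2o_generic1 (K : Type) [Field K] [DecidableEq K] [Algebra (ZMod 2) K] (x y : K)
    (hxy : ((⟨1, 1, 0, 0, 1⟩ : WeierstrassCurve (ZMod 2))⁄K).toAffine.Nonsingular x y)
    (hx0 : x ≠ 0) (hx1 : x ≠ 1) :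
    hasseOp (⟨1, 1, 0, 0, 1⟩ : WeierstrassCurve (ZMod 2)) K (Point.some x y hxy) = 0 := by
  have key := ord1_rel (((⟨1, 1, 0, 0, 1⟩ : WeierstrassCurve (ZMod 2))⁄K).toAffine)
    (h2o_two_eq_zero K) (_root_.map_one _) (_root_.map_one _) (_root_.map_zero _)
    (_root_.map_zero _) (_root_.map_one _)
    (frobPt (⟨1, 1, 0, 0, 1⟩ : WeierstrassCurve (ZMod 2)) K)
    (h2o_frobPt_some _ K) hxy hx0 hx1
  rw [_root_.map_add, _root_.map_neg] at key
  rw [hasseOp_apply, h2o_trace1, ZMod.card]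
  rw [show ((2 : ℕ) : ℤ) = 2 from rfl, two_zsmul, one_zsmul, sub_eq_add_neg]
  exact key

/-- **HASSE2, ordinary form `y² + x y = x³ + 1`.** -/
theorem hasseRelation_ord0 :
    HasseRelation (⟨1, 0, 0, 0, 1⟩ : WeierstrassCurve (ZMod 2)) := by
  classical
  refine Fermat.Agent.H51.S58.hasseRelation_of_generic _ (by decide) ?_
  intro K _ _ _ _
  refine ⟨{0, 1}, fun x y hxy hx => ?_⟩
  have hx0 : x ≠ 0 := fun h => hx (by rw [h]; exact Finset.mem_insert_self _ _)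
  have hx1 : x ≠ 1 := fun h =>
    hx (by rw [h]; exact Finset.mem_insert_of_mem (Finset.mem_singleton_self _))
  rw [h2o_generic0 K x y hxy hx0 hx1, smul_zero]

/-- **HASSE2, ordinary form `y² + x y = x³ + x² + 1`.** -/
theorem hasseRelation_ord1 :
    HasseRelation (⟨1, 1, 0, 0, 1⟩ : WeierstrassCurve (ZMod 2)) := by
  classical
  refine Fermat.Agent.H51.S58.hasseRelation_of_generic _ (by decide) ?_
  intro K _ _ _ _
  refine ⟨{0, 1}, fun x y hxy hx => ?_⟩
  have hx0 : x ≠ 0 := fun h => hx (by rw [h]; exact Finset.mem_insert_self _ _)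
  have hx1 : x ≠ 1 := fun h =>
    hx (by rw [h]; exact Finset.mem_insert_of_mem (Finset.mem_singleton_self _))
  rw [h2o_generic1 K x y hxy hx0 hx1, smul_zero]

end Fermat.Agent.H56.S58
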