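import Fermat.Agent.H48.S58.Hasse2Asm
import Fermat.Agent.H56.S58.Hasse2Ord

/-!
# S58 glue, row 1094 HASSE2: the Hasse relation for every elliptic curve over `𝔽₂`

`hasseTwo : HasseSmallStatement 2`, from helper48's classification, transfer and supersingular
forms (`Fermat.Agent.H48.S58.hasseTwo_of_ordinary`) and the two ordinary forms
(`Fermat.Agent.H56.S58.hasseRelation_ord0`, `hasseRelation_ord1`).
-/

set_option autoImplicit false

namespace Fermat.Agent.H56.S58

/-- **[HASSE2]**: the Hasse relation `2 (φ² - a φ + 2) = 0` for every elliptic curve over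
`𝔽₂`. -/
theorem hasseTwo : @Fermat.Agent.H51.S58.HasseSmallStatement 2 (Fact.mk Nat.prime_two) :=
  Fermat.Agent.H48.S58.hasseTwo_of_ordinary hasseRelation_ord0 hasseRelation_ord1

end Fermat.Agent.H56.S58
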