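import Mathlib

/-!
# S58 glue, row 1094 HASSE2 (helper56): the two ORDINARY normal forms in characteristic 2,
abstract computation

For a Weierstrass curve `W : y² + x y = x³ + a₂ x² + 1` over a field `k` with `2 = 0`
(`a₂ ∈ {0, 1}`), a point `P = (x, y)` with `x ∉ {0, 1}` and an additive map `F` acting on affine
points by `(a, b) ↦ (a², b²)`:

* `a₂ = 0` : `F (F P + P) + 2 P = 0`   (`φ² + φ + 2 = 0`, trace `-1`);
* `a₂ = 1` : `F (F P - P) + 2 P = 0`   (`φ² - φ + 2 = 0`, trace `+1`).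

In both cases `x (F P ± P) = x + 1 / x` and `x (2 P) = x² + 1 / x²`.  Mathlib only.
-/

set_option autoImplicit false
set_option linter.unusedSectionVars false
set_option linter.unusedVariables false

namespace Fermat.Agent.H56.S58

open WeierstrassCurve WeierstrassCurve.Affine WeierstrassCurve.Affine.Point

variable {k : Type*} [Field k] [DecidableEq k]

section ord0

variable (W : WeierstrassCurve.Affine k)
    (h2 : (2 : k) = 0) (ha₁ : W.a₁ = 1) (ha₂ : W.a₂ = 0) (ha₃ : W.a₃ = 0) (ha₄ : W.a₄ = 0)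
    (ha₆ : W.a₆ = 1) {x y : k} (h : W.Equation x y) (hx0 : x ≠ 0) (hx1 : x ≠ 1)

include h2 ha₁ ha₂ ha₃ ha₄ ha₆ h hx0 hx1

theorem ord0_negY : W.negY x y = y + x := by
  simp only [negY, ha₁, ha₃]
  linear_combination (-x - y) * h2

theorem ord0_Y_ne : y ≠ W.negY x y := by
  rw [ord0_negY W h2 ha₁ ha₂ ha₃ ha₄ ha₆ h hx0 hx1]
  intro h0
  apply hx0
  linear_combination (-1 : k) * h0

theorem ord0_X_ne : x ^ 2 ≠ x := by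
  intro h0
  have : x * (x - 1) = 0 := by linear_combination h0
  rcases mul_eq_zero.mp this with h1 | h1
  · exact hx0 h1
  · exact hx1 (sub_eq_zero.mp h1)

theorem ord0_slope_dup : W.slope x x y y = (x ^ 2 + y) / x := by
  have hC := (equation_iff x y).mp h
  rw [ha₁, ha₂, ha₃, ha₄, ha₆] at hC
  have hy := ord0_Y_ne W h2 ha₁ ha₂ ha₃ ha₄ ha₆ h hx0 hx1
  have hd : y - W.negY x y ≠ 0 := sub_ne_zero.mpr hy
  rw [slope_of_Y_ne rfl hy, div_eq_div_iff hd hx0]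
  simp only [negY, ha₁, ha₂, ha₃, ha₄]
  linear_combination (-2) * hC + (-x ^ 2 * y - 1) * h2

theorem ord0_slope_chord : W.slope (x ^ 2) x (y ^ 2) y = (y + x ^ 2 + x + 1) / x := by
  have hC := (equation_iff x y).mp h
  rw [ha₁, ha₂, ha₃, ha₄, ha₆] at hC
  have hne := ord0_X_ne W h2 ha₁ ha₂ ha₃ ha₄ ha₆ h hx0 hx1
  have hd : x ^ 2 - x ≠ 0 := sub_ne_zero.mpr hne
  rw [slope_of_X_ne hne, div_eq_div_iff hd hx0]
  linear_combination (x) * hC + (-x ^ 2 * y + x) * h2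

theorem ord0_addX_dup : W.addX x x ((x ^ 2 + y) / x) = (x ^ 4 + 1) / x ^ 2 := by
  have hC := (equation_iff x y).mp h
  rw [ha₁, ha₂, ha₃, ha₄, ha₆] at hC
  simp only [addX, ha₁, ha₂]
  field_simp
  linear_combination (1) * hC + (x ^ 2 * y) * h2

theorem ord0_addX_chord :
    W.addX (x ^ 2) x ((y + x ^ 2 + x + 1) / x) = (x ^ 2 + 1) / x := by
  have hC := (equation_iff x y).mp h
  rw [ha₁, ha₂, ha₃, ha₄, ha₆] at hC
  simp only [addX, ha₁, ha₂]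
  field_simp
  linear_combination (1) * hC + (x ^ 2 * y + x ^ 3 + x * y + 2 * x ^ 2 + x + y + 1) * h2

/-- The `x`-coordinate identity `x(F (F P + P)) = x (2 P)`. -/
theorem ord0_X :
    (W.addX (x ^ 2) x ((y + x ^ 2 + x + 1) / x)) ^ 2 = W.addX x x ((x ^ 2 + y) / x) := by
  rw [ord0_addX_dup W h2 ha₁ ha₂ ha₃ ha₄ ha₆ h hx0 hx1,
    ord0_addX_chord W h2 ha₁ ha₂ ha₃ ha₄ ha₆ h hx0 hx1]
  field_simp
  linear_combination (x ^ 2) * h2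

/-- The `y`-coordinate identity. -/
theorem ord0_Y :
    (W.addY (x ^ 2) x (y ^ 2) ((y + x ^ 2 + x + 1) / x)) ^ 2 =
      W.negY (W.addX x x ((x ^ 2 + y) / x)) (W.addY x x y ((x ^ 2 + y) / x)) := by
  have hC := (equation_iff x y).mp h
  rw [ha₁, ha₂, ha₃, ha₄, ha₆] at hC
  simp only [addY, negAddY, negY, ord0_addX_dup W h2 ha₁ ha₂ ha₃ ha₄ ha₆ h hx0 hx1,
    ord0_addX_chord W h2 ha₁ ha₂ ha₃ ha₄ ha₆ h hx0 hx1, ha₁, ha₃]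
  field_simp
  linear_combination (-x ^ 7 + x ^ 4 * y ^ 2 - 3 * x ^ 5 * y + 4 * x ^ 6 + 2 * x ^ 4 * y
    - 2 * x ^ 5 + 6 * x ^ 4 + 2 * x ^ 2 * y + 4 * x ^ 2 + 1) * hC +
    (2 * x ^ 9 - 2 * x ^ 7 * y - 2 * x ^ 8 - 6 * x ^ 5 * y + x ^ 6 + x ^ 4 * y + 2 * x ^ 5
    + 7 * x ^ 4 + 4 * x ^ 2 * y + 5 * x ^ 3 + x * y + 6 * x ^ 2 + 2 * x + y + 1) * h2

end ord0

/-- **Ordinary form `a₂ = 0`**: `F (F P + P) + 2 P = 0` for `x(P) ∉ {0, 1}`. -/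
theorem ord0_rel (W : WeierstrassCurve.Affine k)
    (h2 : (2 : k) = 0) (ha₁ : W.a₁ = 1) (ha₂ : W.a₂ = 0) (ha₃ : W.a₃ = 0) (ha₄ : W.a₄ = 0)
    (ha₆ : W.a₆ = 1) (F : W.Point → W.Point)
    (hF : ∀ (a b : k) (hab : W.Nonsingular a b), ∃ hab' : W.Nonsingular (a ^ 2) (b ^ 2),
      F (some a b hab) = some (a ^ 2) (b ^ 2) hab')
    {x y : k} (h : W.Nonsingular x y) (hx0 : x ≠ 0) (hx1 : x ≠ 1) :
    F (F (some x y h) + some x y h) + (some x y h + some x y h) = 0 := by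
  have hXne := ord0_X_ne W h2 ha₁ ha₂ ha₃ ha₄ ha₆ h.1 hx0 hx1
  have hYne := ord0_Y_ne W h2 ha₁ ha₂ ha₃ ha₄ ha₆ h.1 hx0 hx1
  obtain ⟨h₁, e₁⟩ := hF x y h
  rw [e₁, add_of_X_ne hXne]
  obtain ⟨h₂, e₂⟩ := hF _ _ (nonsingular_add h₁ h fun hxy => hXne hxy.left)
  rw [e₂, add_self_of_Y_ne hYne]
  apply add_of_Y_eq
  · rw [ord0_slope_chord W h2 ha₁ ha₂ ha₃ ha₄ ha₆ h.1 hx0 hx1,
      ord0_slope_dup W h2 ha₁ ha₂ ha₃ ha₄ ha₆ h.1 hx0 hx1]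
    exact ord0_X W h2 ha₁ ha₂ ha₃ ha₄ ha₆ h.1 hx0 hx1
  · rw [ord0_slope_chord W h2 ha₁ ha₂ ha₃ ha₄ ha₆ h.1 hx0 hx1,
      ord0_slope_dup W h2 ha₁ ha₂ ha₃ ha₄ ha₆ h.1 hx0 hx1]
    exact ord0_Y W h2 ha₁ ha₂ ha₃ ha₄ ha₆ h.1 hx0 hx1

section ord1

variable (W : WeierstrassCurve.Affine k)
    (h2 : (2 : k) = 0) (ha₁ : W.a₁ = 1) (ha₂ : W.a₂ = 1) (ha₃ : W.a₃ = 0) (ha₄ : W.a₄ = 0)
    (ha₆ : W.a₆ = 1) {x y : k} (h : W.Equation x y) (hx0 : x ≠ 0) (hx1 : x ≠ 1)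

include h2 ha₁ ha₂ ha₃ ha₄ ha₆ h hx0 hx1

theorem ord1_negY : W.negY x y = y + x := by
  simp only [negY, ha₁, ha₃]
  linear_combination (-x - y) * h2

theorem ord1_Y_ne : y ≠ W.negY x y := by
  rw [ord1_negY W h2 ha₁ ha₂ ha₃ ha₄ ha₆ h hx0 hx1]
  intro h0
  apply hx0
  linear_combination (-1 : k) * h0

theorem ord1_X_ne : x ^ 2 ≠ x := by
  intro h0
  have : x * (x - 1) = 0 := by linear_combination h0
  rcases mul_eq_zero.mp this with h1 | h1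
  · exact hx0 h1
  · exact hx1 (sub_eq_zero.mp h1)

theorem ord1_slope_dup : W.slope x x y y = (x ^ 2 + y) / x := by
  have hC := (equation_iff x y).mp h
  rw [ha₁, ha₂, ha₃, ha₄, ha₆] at hC
  have hy := ord1_Y_ne W h2 ha₁ ha₂ ha₃ ha₄ ha₆ h hx0 hx1
  have hd : y - W.negY x y ≠ 0 := sub_ne_zero.mpr hy
  rw [slope_of_Y_ne rfl hy, div_eq_div_iff hd hx0]
  simp only [negY, ha₁, ha₂, ha₃, ha₄]
  linear_combination (-2) * hC + (-x ^ 2 * y - 1) * h2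

theorem ord1_slope_chord :
    W.slope (x ^ 2) x (y ^ 2) (W.negY x y) = (y + x ^ 2 + 1) / x := by
  have hC := (equation_iff x y).mp h
  rw [ha₁, ha₂, ha₃, ha₄, ha₆] at hC
  have hne := ord1_X_ne W h2 ha₁ ha₂ ha₃ ha₄ ha₆ h hx0 hx1
  have hd : x ^ 2 - x ≠ 0 := sub_ne_zero.mpr hne
  rw [slope_of_X_ne hne, div_eq_div_iff hd hx0]
  simp only [negY, ha₁, ha₃]
  linear_combination (x) * hC + (-x ^ 2 * y + x ^ 3 + x * y + x) * h2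

theorem ord1_addX_dup : W.addX x x ((x ^ 2 + y) / x) = (x ^ 4 + 1) / x ^ 2 := by
  have hC := (equation_iff x y).mp h
  rw [ha₁, ha₂, ha₃, ha₄, ha₆] at hC
  simp only [addX, ha₁, ha₂]
  field_simp
  linear_combination (1) * hC + (x ^ 2 * y) * h2

theorem ord1_addX_chord : W.addX (x ^ 2) x ((y + x ^ 2 + 1) / x) = (x ^ 2 + 1) / x := by
  have hC := (equation_iff x y).mp h
  rw [ha₁, ha₂, ha₃, ha₄, ha₆] at hC
  simp only [addX, ha₁, ha₂]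
  field_simp
  linear_combination (1) * hC + (x ^ 2 * y + x ^ 2 + y + 1) * h2

/-- The `x`-coordinate identity `x(F (F P - P)) = x (2 P)`. -/
theorem ord1_X :
    (W.addX (x ^ 2) x ((y + x ^ 2 + 1) / x)) ^ 2 = W.addX x x ((x ^ 2 + y) / x) := by
  rw [ord1_addX_dup W h2 ha₁ ha₂ ha₃ ha₄ ha₆ h hx0 hx1,
    ord1_addX_chord W h2 ha₁ ha₂ ha₃ ha₄ ha₆ h hx0 hx1]
  field_simp
  linear_combination (x ^ 2) * h2

/-- The `y`-coordinate identity. -/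
theorem ord1_Y :
    (W.addY (x ^ 2) x (y ^ 2) ((y + x ^ 2 + 1) / x)) ^ 2 =
      W.negY (W.addX x x ((x ^ 2 + y) / x)) (W.addY x x y ((x ^ 2 + y) / x)) := by
  have hC := (equation_iff x y).mp h
  rw [ha₁, ha₂, ha₃, ha₄, ha₆] at hC
  simp only [addY, negAddY, negY, ord1_addX_dup W h2 ha₁ ha₂ ha₃ ha₄ ha₆ h hx0 hx1,
    ord1_addX_chord W h2 ha₁ ha₂ ha₃ ha₄ ha₆ h hx0 hx1, ha₁, ha₃]
  field_simp
  linear_combination (-x ^ 7 + x ^ 4 * y ^ 2 - 3 * x ^ 5 * y + 7 * x ^ 6 + 2 * x ^ 4 * y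
    - 4 * x ^ 5 + 6 * x ^ 4 + 2 * x ^ 2 * y - 2 * x ^ 3 + 4 * x ^ 2 + 1) * hC +
    (2 * x ^ 9 - 6 * x ^ 7 * y + 2 * x ^ 8 + 4 * x ^ 6 * y - 2 * x ^ 7 - 7 * x ^ 5 * y
    + 7 * x ^ 6 + 5 * x ^ 4 * y - x ^ 5 - 2 * x ^ 3 * y + 8 * x ^ 4 + 4 * x ^ 2 * y + x ^ 3
    + 5 * x ^ 2 + x + y + 1) * h2

end ord1

/-- **Ordinary form `a₂ = 1`**: `F (F P - P) + 2 P = 0` for `x(P) ∉ {0, 1}`. -/
theorem ord1_rel (W : WeierstrassCurve.Affine k)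
    (h2 : (2 : k) = 0) (ha₁ : W.a₁ = 1) (ha₂ : W.a₂ = 1) (ha₃ : W.a₃ = 0) (ha₄ : W.a₄ = 0)
    (ha₆ : W.a₆ = 1) (F : W.Point → W.Point)
    (hF : ∀ (a b : k) (hab : W.Nonsingular a b), ∃ hab' : W.Nonsingular (a ^ 2) (b ^ 2),
      F (some a b hab) = some (a ^ 2) (b ^ 2) hab')
    {x y : k} (h : W.Nonsingular x y) (hx0 : x ≠ 0) (hx1 : x ≠ 1) :
    F (F (some x y h) + -some x y h) + (some x y h + some x y h) = 0 := by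
  have hXne := ord1_X_ne W h2 ha₁ ha₂ ha₃ ha₄ ha₆ h.1 hx0 hx1
  have hYne := ord1_Y_ne W h2 ha₁ ha₂ ha₃ ha₄ ha₆ h.1 hx0 hx1
  obtain ⟨h₁, e₁⟩ := hF x y h
  rw [e₁, neg_some, add_of_X_ne hXne]
  obtain ⟨h₂, e₂⟩ := hF _ _ (nonsingular_add h₁ ((nonsingular_neg ..).mpr h)
    fun hxy => hXne hxy.left)
  rw [e₂, add_self_of_Y_ne hYne]
  apply add_of_Y_eq
  · rw [ord1_slope_chord W h2 ha₁ ha₂ ha₃ ha₄ ha₆ h.1 hx0 hx1,
      ord1_slope_dup W h2 ha₁ ha₂ ha₃ ha₄ ha₆ h.1 hx0 hx1]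
    exact ord1_X W h2 ha₁ ha₂ ha₃ ha₄ ha₆ h.1 hx0 hx1
  · rw [ord1_slope_chord W h2 ha₁ ha₂ ha₃ ha₄ ha₆ h.1 hx0 hx1,
      ord1_slope_dup W h2 ha₁ ha₂ ha₃ ha₄ ha₆ h.1 hx0 hx1]
    exact ord1_Y W h2 ha₁ ha₂ ha₃ ha₄ ha₆ h.1 hx0 hx1

end Fermat.Agent.H56.S58
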